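import Fermat.Agent.FiniteKakeya.Basic
import Mathlib.Algebra.MvPolynomial.PDeriv
import Mathlib.Algebra.CharP.Algebra
import Mathlib.FieldTheory.IsAlgClosed.AlgebraicClosure
import Mathlib.Data.Nat.Choose.Bounds
import Mathlib.Tactic

/-!
# Joints

A polynomial of least degree vanishing at the joints vanishes on a line with more joints than its
degree, so if all lines are so its gradient vanishes at every joint (Quilodrán; Kaplan, Sharir and
Shustin).
-/

set_option autoImplicit false

noncomputable section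

open MvPolynomial Finset

namespace FA.JointsTheorem

open FA.FiniteKakeya

variable {F : Type*} [Field F] {n : ℕ} {ι : Type*}

/-- `x` lies on `n` of the lines of `L`, with independent directions. -/
def IsJoint (L : Finset ι) (a v : ι → Fin n → F) (x : Fin n → F) : Prop :=
  ∃ f : Fin n → ι, (∀ j, f j ∈ L) ∧ LinearIndependent F (fun j => v (f j)) ∧
    ∀ j, ∃ t : F, x = a (f j) + t • v (f j)

theorem alongLine_eq_aeval (P : MvPolynomial (Fin n) F) (a v : Fin n → F) :
    alongLine P a v =
      aeval (fun i => Polynomial.C (v i) * Polynomial.X + Polynomial.C (a i)) P := by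
  rw [alongLine, aeval_def, eval₂_eq', Polynomial.algebraMap_eq]

theorem coeff_one_alongLine (P : MvPolynomial (Fin n) F) (x v : Fin n → F) :
    (alongLine P x v).coeff 1 = ∑ i, eval x (pderiv i P) * v i := by
  classical
  rw [alongLine_eq_aeval]
  induction P using MvPolynomial.induction_on with
  | C a => simp
  | add p q hp hq => simp [hp, hq, add_mul, sum_add_distrib]
  | mul_X p j hp =>
    have h0 : (aeval (fun i => Polynomial.C (v i) * Polynomial.X + Polynomial.C (x i)) p).coeff 0 =
        eval x p := by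
      rw [← alongLine_eq_aeval, Polynomial.coeff_zero_eq_eval_zero, eval_alongLine, zero_smul,
        add_zero]
    rw [map_mul, aeval_X, mul_add, ← mul_assoc, Polynomial.coeff_add, Polynomial.coeff_mul_X,
      Polynomial.coeff_mul_C, Polynomial.coeff_mul_C, h0, hp]
    simp only [pderiv_mul, pderiv_X, map_add, map_mul, eval_X, add_mul, sum_add_distrib,
      sum_mul]
    rw [add_comm]
    refine congr_arg₂ (· + ·) (sum_congr rfl fun i _ => by ring) ?_
    rw [sum_eq_single j (fun i _ hi => by simp [hi.symm]) (by simp)]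
    simp

theorem totalDegree_pderiv_lt {P : MvPolynomial (Fin n) F} {i : Fin n} (h : pderiv i P ≠ 0) :
    (pderiv i P).totalDegree < P.totalDegree := by
  obtain ⟨m, hm, hd⟩ := exists_mem_eq_sup (pderiv i P).support (support_nonempty.2 h)
    (fun s => s.sum fun _ e => e)
  rw [mem_support_iff, coeff_pderiv] at hm
  have h1 := le_totalDegree (mem_support_iff.2 (left_ne_zero_of_mul hm))
  rw [Finsupp.sum_add_index' (fun _ => rfl) (fun _ _ _ => rfl), Finsupp.sum_single_index rfl] at h1
  rw [totalDegree, hd]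
  omega

/-- Over an algebraically closed field a polynomial without derivatives is constant or a `p`-th
power, so a nonzero polynomial of least degree vanishing somewhere has a nonzero derivative. -/
theorem exists_smaller [IsAlgClosed F] {P : MvPolynomial (Fin n) F} (hP : P ≠ 0)
    (hd : 0 < P.totalDegree) (h : ∀ i, pderiv i P = 0) :
    ∃ R : MvPolynomial (Fin n) F, R ≠ 0 ∧ R.totalDegree < P.totalDegree ∧
      ∀ x, eval x P = 0 → eval x R = 0 := by
  classical
  have key : ∀ m ∈ P.support, ∀ i, (m i : F) = 0 := by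
    intro m hm i
    rcases Nat.eq_zero_or_pos (m i) with h0 | h0
    · rw [h0, Nat.cast_zero]
    have := congrArg (coeff (m - Finsupp.single i 1)) (h i)
    rw [coeff_pderiv, coeff_zero,
      tsub_add_cancel_of_le (Finsupp.single_le_iff.2 h0), mul_eq_zero] at this
    have h2 := this.resolve_left (mem_support_iff.1 hm)
    rwa [Finsupp.tsub_apply, Finsupp.single_eq_same, ← Nat.cast_add_one, Nat.sub_add_cancel h0]
      at h2
  obtain ⟨p, hp⟩ := CharP.exists F
  obtain ⟨m, hm, hmd⟩ := exists_mem_eq_sup P.support (support_nonempty.2 hP)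
    (fun s => s.sum fun _ e => e)
  rcases CharP.char_is_prime_or_zero F p with hpp | rfl
  swap
  · have : CharZero F := CharP.charP_to_charZero F
    refine absurd hd (not_lt.2 ?_)
    rw [totalDegree, hmd, Finsupp.sum_fintype _ _ (fun _ => rfl)]
    exact (sum_eq_zero fun i _ => Nat.cast_eq_zero.1 (key m hm i)).le
  have := Fact.mk hpp
  have hdiv : ∀ m ∈ P.support, ∀ i, p ∣ m i := fun m hm i =>
    (CharP.cast_eq_zero_iff F p _).1 (key m hm i)
  choose r hr using fun c : F => IsAlgClosed.exists_pow_nat_eq c hpp.pos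
  let q : (Fin n →₀ ℕ) → (Fin n →₀ ℕ) := fun m => m.mapRange (· / p) (Nat.zero_div p)
  have hq : ∀ m ∈ P.support, p • q m = m := fun m hm => Finsupp.ext fun i => by
    simp [q, Nat.mul_div_cancel' (hdiv m hm i)]
  set R := ∑ m ∈ P.support, monomial (q m) (r (coeff m P)) with hR
  have hpow : R ^ p = P := by
    rw [hR, sum_pow_char]
    conv_rhs => rw [P.as_sum]
    exact sum_congr rfl fun m hm => by rw [monomial_pow, hr, hq m hm]
  refine ⟨R, fun h0 => hP ?_, ?_, fun x hx => ?_⟩
  · rw [← hpow, h0, zero_pow hpp.ne_zero]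
  · refine (totalDegree_finsetSum_le fun m hm => ?_).trans_lt (Nat.div_lt_self hd hpp.one_lt)
    refine (totalDegree_monomial_le _ _).trans ?_
    rw [Nat.le_div_iff_mul_le hpp.pos]
    have := le_totalDegree hm
    rw [← hq m hm, Finsupp.sum_fintype _ _ (fun _ => rfl)] at this
    rw [Finsupp.sum_fintype _ _ (fun _ => rfl), sum_mul]
    refine le_trans (le_of_eq (sum_congr rfl fun i _ => ?_)) this
    simp [mul_comm]
  · rw [← hpow, map_pow] at hx
    exact pow_eq_zero_iff hpp.ne_zero |>.1 hx

theorem isJoint_map {K : Type*} [Field K] (φ : F →+* K) {L : Finset ι} {a v : ι → Fin n → F}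
    {x : Fin n → F} (h : IsJoint L a v x) :
    IsJoint L (fun l => φ ∘ a l) (fun l => φ ∘ v l) (φ ∘ x) := by
  obtain ⟨f, hf, hind, hon⟩ := h
  refine ⟨f, hf, ?_, fun j => ?_⟩
  · have h1 := Matrix.linearIndependent_rows_iff_isUnit (A := Matrix.of fun j => v (f j)) |>.1 hind
    have h2 := h1.map φ.mapMatrix
    exact Matrix.linearIndependent_rows_iff_isUnit.2 h2
  · obtain ⟨t, ht⟩ := hon j
    exact ⟨φ t, funext fun i => by simp [ht]⟩

/-- Over an algebraically closed field some line contains at most `d` joints. -/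
theorem exists_poor_line [IsAlgClosed F] {L : Finset ι} {a v : ι → Fin n → F}
    {J : Finset (Fin n → F)} (hJ : ∀ x ∈ J, IsJoint L a v x) (hne : J.Nonempty) {d : ℕ}
    (hd : #J < (n + d).choose n) :
    ∃ l ∈ L, ∀ S : Finset (Fin n → F), S ⊆ J → (∀ x ∈ S, ∃ t : F, x = a l + t • v l) →
      #S ≤ d := by
  classical
  by_contra! hcon
  have hex : ∃ e, ∃ P : MvPolynomial (Fin n) F,
      P ≠ 0 ∧ P.totalDegree = e ∧ ∀ x ∈ J, eval x P = 0 := by
    obtain ⟨P, hP, -, hPJ⟩ := exists_vanishing J hd
    exact ⟨_, P, hP, rfl, hPJ⟩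
  obtain ⟨P, hP, hPe, hPJ⟩ := Nat.find_spec hex
  have hle : P.totalDegree ≤ d := by
    obtain ⟨Q, hQ, hQd, hQJ⟩ := exists_vanishing J hd
    rw [hPe]
    exact (Nat.find_min' hex ⟨Q, hQ, rfl, hQJ⟩).trans hQd
  have hmin : ∀ Q : MvPolynomial (Fin n) F, Q.totalDegree < P.totalDegree →
      (∀ x ∈ J, eval x Q = 0) → Q = 0 := fun Q hlt hQJ => by
    by_contra hQ
    exact Nat.find_min hex (hPe ▸ hlt) ⟨Q, hQ, rfl, hQJ⟩
  have hpos : 0 < P.totalDegree := by
    refine Nat.pos_of_ne_zero fun h0 => ?_
    obtain ⟨x, hx⟩ := hne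
    rw [totalDegree_eq_zero_iff_eq_C.1 h0] at hP hPJ
    have := hPJ x hx
    rw [eval_C] at this
    exact hP (by rw [this, map_zero])
  have hgrad : ∀ i, ∀ x ∈ J, eval x (pderiv i P) = 0 := by
    intro i x hx
    obtain ⟨f, hf, hind, hon⟩ := hJ x hx
    let φ : (Fin n → F) →ₗ[F] F :=
      ∑ k, eval x (pderiv k P) • LinearMap.proj (R := F) (φ := fun _ : Fin n => F) k
    have : Nonempty (Fin n) := ⟨i⟩
    suffices φ = 0 by simpa [φ, Pi.single_apply] using LinearMap.congr_fun this (Pi.single i 1)
    refine (basisOfLinearIndependentOfCardEqFinrank hind (by simp)).ext fun j => ?_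
    rw [coe_basisOfLinearIndependentOfCardEqFinrank]
    obtain ⟨S, hSJ, hSl, hS⟩ := hcon (f j) (hf j)
    obtain ⟨t₀, ht₀⟩ := hon j
    have hv : v (f j) ≠ 0 := hind.ne_zero j
    let T := S.preimage (fun t : F => x + t • v (f j))
      (fun s _ t _ h => smul_left_injective F hv (add_left_cancel h))
    have hT : #S ≤ #T := by
      refine le_trans (card_le_card fun y hy => ?_) (card_image_le (f := fun t => x + t • v (f j)))
      obtain ⟨t, rfl⟩ := hSl y hy
      refine mem_image.2 ⟨t - t₀, ?_, ?_⟩
      · rw [mem_preimage]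
        convert hy using 1
        rw [ht₀, sub_smul]
        abel
      · rw [ht₀, sub_smul]
        abel
    have hg : alongLine P x (v (f j)) = 0 :=
      Polynomial.eq_zero_of_natDegree_lt_card_of_eval_eq_zero' _ T
        (fun t ht => (eval_alongLine P _ _ t).trans
          (hPJ _ (hSJ ((mem_preimage (f := fun t : F => x + t • v (f j))).1 ht))))
        ((natDegree_alongLine P _ _).trans_lt (by omega))
    have := coeff_one_alongLine P x (v (f j))
    rw [hg, Polynomial.coeff_zero] at this
    simp [φ, ← this]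
  have hzero : ∀ i, pderiv i P = 0 := fun i => by
    by_contra h
    exact h (hmin _ (totalDegree_pderiv_lt h) (hgrad i))
  obtain ⟨R, hR, hlt, hRJ⟩ := exists_smaller hP hpos hzero
  exact hR (hmin R hlt fun x hx => hRJ x (hPJ x hx))

theorem card_le_mul [IsAlgClosed F] (L : Finset ι) (a v : ι → Fin n → F) {d : ℕ} :
    ∀ J : Finset (Fin n → F), (∀ x ∈ J, IsJoint L a v x) → #J < (n + d).choose n →
      #J ≤ #L * d := by
  classical
  induction L using Finset.strongInduction with
  | H L ih =>
    intro J hJ hd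
    rcases J.eq_empty_or_nonempty with rfl | hne
    · simp
    obtain ⟨l, hl, hS⟩ := exists_poor_line hJ hne hd
    set S := J.filter fun x => ∃ t : F, x = a l + t • v l
    have h1 : #S ≤ d := hS S (filter_subset _ _) fun x hx => (mem_filter.1 hx).2
    have h2 := ih (L.erase l) (erase_ssubset hl) (J \ S) (fun x hx => ?_)
      ((card_le_card sdiff_subset).trans_lt hd)
    · rw [← card_erase_add_one hl, add_mul, one_mul]
      have := card_sdiff_add_card_eq_card (show S ⊆ J from filter_subset _ _)
      omega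
    obtain ⟨hxJ, hxS⟩ := mem_sdiff.1 hx
    obtain ⟨f, hf, hind, hon⟩ := hJ x hxJ
    refine ⟨f, fun j => mem_erase.2 ⟨fun he => hxS (mem_filter.2 ⟨hxJ, ?_⟩), hf j⟩, hind, hon⟩
    rw [← he]
    exact hon j

/-- **The joints theorem.** -/
theorem joints (hn : 2 ≤ n) (L : Finset ι) (a v : ι → Fin n → F) (J : Finset (Fin n → F))
    (hJ : ∀ x ∈ J, IsJoint L a v x) : #J ^ (n - 1) ≤ n.factorial * #L ^ n := by
  classical
  rcases J.eq_empty_or_nonempty with rfl | hne
  · simp [zero_pow (show n - 1 ≠ 0 by omega)]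
  have hex : ∃ d, #J < (n + d).choose n := by
    refine ⟨#J, ?_⟩
    calc #J < #J + 1 := Nat.lt_succ_self _
      _ = (1 + #J).choose 1 := by rw [Nat.choose_one_right, add_comm]
      _ ≤ (n + #J).choose n := by
        rw [Nat.choose_symm_add, Nat.choose_symm_add]
        exact Nat.choose_le_choose _ (by omega)
  obtain ⟨d, hd, hmin⟩ : ∃ d, #J < (n + d).choose n ∧ ∀ e < d, (n + e).choose n ≤ #J :=
    ⟨Nat.find hex, Nat.find_spec hex, fun e he => not_lt.1 (Nat.find_min hex he)⟩
  let φ := algebraMap F (AlgebraicClosure F)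
  have hinj : Function.Injective fun x : Fin n → F => φ ∘ x := φ.injective.comp_left
  have h1 : #J ≤ #L * d := by
    rw [← card_image_of_injective J hinj] at hd ⊢
    refine card_le_mul L (fun l => φ ∘ a l) (fun l => φ ∘ v l) _ (fun x hx => ?_) hd
    obtain ⟨y, hy, rfl⟩ := mem_image.1 hx
    exact isJoint_map φ (hJ y hy)
  have h2 : d ^ n ≤ n.factorial * #J := by
    rcases d with _ | e
    · simp [zero_pow (show n ≠ 0 by omega)]
    refine le_trans ?_ (Nat.mul_le_mul_left _ (hmin e e.lt_succ_self))
    rw [add_comm n, ← Nat.ascFactorial_eq_factorial_mul_choose]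
    exact Nat.pow_succ_le_ascFactorial _ _
  have h3 : #J ^ n ≤ n.factorial * #L ^ n * #J := by
    calc #J ^ n ≤ (#L * d) ^ n := Nat.pow_le_pow_left h1 n
      _ = #L ^ n * d ^ n := mul_pow _ _ _
      _ ≤ #L ^ n * (n.factorial * #J) := Nat.mul_le_mul_left _ h2
      _ = n.factorial * #L ^ n * #J := by ring
  have h4 : #J ^ n = #J ^ (n - 1) * #J := by
    rw [← pow_succ]
    congr
    omega
  rw [h4] at h3
  exact Nat.le_of_mul_le_mul_right h3 hne.card_pos

end FA.JointsTheorem

end
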